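import Fermat.Agent.S05.C1b
import Fermat.Agent.S05.GoodRed

/-!
# S52 / Part A, piece (A1a): reduction of points at a place of good reduction

General setting: `K` a field, `A` a valuation subring of `K`, `φ : A →+* κ` a ring homomorphism to
a field whose kernel is the maximal ideal, `W₀` a Weierstrass curve over `A` with good reduction
(`(W₀.map φ).Δ ≠ 0`).  We define the reduction map

  `red : (W₀.map A.subtype).Point → (W₀.map φ).Point`

and prove that it is injective and additive on every subgroup meeting the kernel of reduction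
trivially (for instance on the `n`-torsion, `n` a unit of `A`).
-/

set_option autoImplicit false
set_option linter.unusedSectionVars false
set_option linter.unusedVariables false

namespace Fermat.Agent.S52.H411

open WeierstrassCurve WeierstrassCurve.Affine
open Fermat.Agent.S05

variable {K κ : Type*} [Field K] [Field κ] [DecidableEq K] [DecidableEq κ]
variable (A : ValuationSubring K) (φ : A →+* κ) (W₀ : WeierstrassCurve A)

/-- Good reduction datum: the kernel of `φ` is the maximal ideal of `A` and the reduced curve has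
nonzero discriminant. -/
structure GoodRedDatum : Prop where
  ker : ∀ a : A, φ a = 0 ↔ A.valuation (a : K) < 1
  Δ_ne : (W₀.map φ).Δ ≠ 0

variable {A φ W₀}

lemma integralCoeffs_map :
    SameRed.IntegralCoeffs (W₀.map A.subtype).toAffine A.valuation := by
  constructor <;> exact (A.valuation_le_one_iff _).mpr (Subtype.property _)

lemma val_Δ_eq_one (h : GoodRedDatum A φ W₀) :
    A.valuation (W₀.map A.subtype).toAffine.Δ = 1 := by
  have h1 : (W₀.map A.subtype).Δ = ((W₀.Δ : A) : K) := by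
    rw [WeierstrassCurve.map_Δ]; rfl
  have h2 : φ W₀.Δ ≠ 0 := by
    have := h.Δ_ne
    rwa [WeierstrassCurve.map_Δ] at this
  show A.valuation (W₀.map A.subtype).Δ = 1
  rw [h1]
  have := (h.ker W₀.Δ).not.mp h2
  exact le_antisymm ((A.valuation_le_one_iff _).mpr W₀.Δ.2) (not_lt.mp this)

lemma equation_red (a b : A)
    (hab : (W₀.map A.subtype).toAffine.Equation (a : K) (b : K)) :
    (W₀.map φ).toAffine.Equation (φ a) (φ b) :=
  Equation.map φ ((map_equation (W := W₀.toAffine) A.subtype_injective a b).mp hab)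

lemma nonsingular_red (h : GoodRedDatum A φ W₀) (a b : A)
    (hab : (W₀.map A.subtype).toAffine.Equation (a : K) (b : K)) :
    (W₀.map φ).toAffine.Nonsingular (φ a) (φ b) :=
  (equation_iff_nonsingular_of_Δ_ne_zero h.Δ_ne).mp (equation_red a b hab)

open scoped Classical in
/-- The reduction map on points (points with non-integral coordinates go to `0`). -/
noncomputable def red (h : GoodRedDatum A φ W₀) :
    (W₀.map A.subtype).toAffine.Point → (W₀.map φ).toAffine.Point
  | .zero => 0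
  | .some x y hxy =>
      if hx : x ∈ A ∧ y ∈ A then
        .some (φ ⟨x, hx.1⟩) (φ ⟨y, hx.2⟩) (nonsingular_red h ⟨x, hx.1⟩ ⟨y, hx.2⟩ hxy.1)
      else 0

@[simp] lemma red_zero (h : GoodRedDatum A φ W₀) : red h 0 = 0 := rfl

lemma red_some (h : GoodRedDatum A φ W₀) {x y : K}
    (hxy : (W₀.map A.subtype).toAffine.Nonsingular x y) (hx : x ∈ A) (hy : y ∈ A) :
    red h (.some x y hxy) =
      .some (φ ⟨x, hx⟩) (φ ⟨y, hy⟩) (nonsingular_red h ⟨x, hx⟩ ⟨y, hy⟩ hxy.1) := by
  simp only [red, dif_pos (And.intro hx hy)]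

lemma red_some_of_not_mem (h : GoodRedDatum A φ W₀) {x y : K}
    (hxy : (W₀.map A.subtype).toAffine.Nonsingular x y) (hx : x ∉ A) :
    red h (.some x y hxy) = 0 := by
  simp only [red, dif_neg (fun hh : x ∈ A ∧ y ∈ A => hx hh.1)]


lemma mem_iff_not_inKer {x y : K} (hxy : (W₀.map A.subtype).toAffine.Nonsingular x y) :
    x ∈ A ↔ ¬ SameRed.InKer (W₀.map A.subtype).toAffine A.valuation (.some x y hxy) := by
  rw [SameRed.inKer_some, not_lt, A.valuation_le_one_iff]

lemma y_mem_of_x_mem {x y : K} (hxy : (W₀.map A.subtype).toAffine.Equation x y) (hx : x ∈ A) :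
    y ∈ A :=
  (A.valuation_le_one_iff _).mp
    (GoodRed.val_y_le_one integralCoeffs_map hxy ((A.valuation_le_one_iff _).mpr hx))

/-- `red P = 0` exactly for the points in the kernel of reduction. -/
lemma red_eq_zero_iff (h : GoodRedDatum A φ W₀) (P : (W₀.map A.subtype).toAffine.Point) :
    red h P = 0 ↔ SameRed.InKer (W₀.map A.subtype).toAffine A.valuation P := by
  rcases P with _ | ⟨x, y, hxy⟩
  · exact ⟨fun _ => trivial, fun _ => rfl⟩
  · by_cases hx : x ∈ A
    · have hy := y_mem_of_x_mem hxy.1 hx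
      rw [red_some h hxy hx hy]
      exact ⟨fun h0 => absurd h0 (Point.some_ne_zero _),
        fun hk => absurd hk ((mem_iff_not_inKer hxy).mp hx)⟩
    · rw [red_some_of_not_mem h hxy hx]
      refine ⟨fun _ => ?_, fun _ => rfl⟩
      by_contra hk
      exact hx ((mem_iff_not_inKer hxy).mpr hk)

lemma red_neg (h : GoodRedDatum A φ W₀) (P : (W₀.map A.subtype).toAffine.Point) :
    red h (-P) = - red h P := by
  rcases P with _ | ⟨x, y, hxy⟩
  · rfl
  · rw [Point.neg_some]
    by_cases hx : x ∈ A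
    · have hy := y_mem_of_x_mem hxy.1 hx
      have hny : (W₀.map A.subtype).toAffine.negY x y ∈ A :=
        y_mem_of_x_mem ((equation_neg _ _).mpr hxy.1) hx
      rw [red_some h _ hx hny, red_some h hxy hx hy, Point.neg_some]
      congr 1
      have e : (⟨(W₀.map A.subtype).toAffine.negY x y, hny⟩ : A) =
          W₀.toAffine.negY ⟨x, hx⟩ ⟨y, hy⟩ := by
        apply Subtype.ext
        exact (map_negY (W' := W₀.toAffine) A.subtype ⟨x, hx⟩ ⟨y, hy⟩)
      rw [e]
      exact (map_negY (W' := W₀.toAffine) φ ⟨x, hx⟩ ⟨y, hy⟩).symm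
    · rw [red_some_of_not_mem h _ hx, red_some_of_not_mem h hxy hx, neg_zero]


lemma val_sub_lt_one_of_map_eq (h : GoodRedDatum A φ W₀) {a b : A} (hab : φ a = φ b) :
    A.valuation ((a : K) - (b : K)) < 1 := by
  have : φ (a - b) = 0 := by rw [map_sub, hab, sub_self]
  exact (h.ker (a - b)).mp this

/-- **Same reduction** (integral points): the difference lies in the kernel of reduction. -/
lemma inKer_sub_of_red_eq_some (h : GoodRedDatum A φ W₀) {x₁ y₁ x₂ y₂ : K}
    (h₁ : (W₀.map A.subtype).toAffine.Nonsingular x₁ y₁)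
    (h₂ : (W₀.map A.subtype).toAffine.Nonsingular x₂ y₂)
    (hx₁ : x₁ ∈ A) (hx₂ : x₂ ∈ A)
    (hred : red h (.some x₁ y₁ h₁) = red h (.some x₂ y₂ h₂)) :
    SameRed.InKer (W₀.map A.subtype).toAffine A.valuation (.some x₁ y₁ h₁ - .some x₂ y₂ h₂) := by
  have hy₁ := y_mem_of_x_mem h₁.1 hx₁
  have hy₂ := y_mem_of_x_mem h₂.1 hx₂
  rw [red_some h h₁ hx₁ hy₁, red_some h h₂ hx₂ hy₂] at hred
  have hxe : φ ⟨x₁, hx₁⟩ = φ ⟨x₂, hx₂⟩ := by injection hred
  have hye : φ ⟨y₁, hy₁⟩ = φ ⟨y₂, hy₂⟩ := by injection hred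
  have vx₁ := (A.valuation_le_one_iff _).mpr hx₁
  have vx₂ := (A.valuation_le_one_iff _).mpr hx₂
  have vy₁ := (A.valuation_le_one_iff _).mpr hy₁
  have vy₂ := (A.valuation_le_one_iff _).mpr hy₂
  exact SameRed.inKer_sub_of_same_reduction integralCoeffs_map h₁ h₂ vx₁ vy₁ vx₂ vy₂
    (val_sub_lt_one_of_map_eq h hxe) (val_sub_lt_one_of_map_eq h hye)
    (GoodRed.nonsingular_reduction_of_val_Δ integralCoeffs_map (val_Δ_eq_one h) h₁.1 vx₁)

/-- A point is *clean* if it is `0` or has integral coordinates, i.e. it is not a nonzero point of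
the kernel of reduction. -/
def Clean (A : ValuationSubring K) (W₀ : WeierstrassCurve A)
    (P : (W₀.map A.subtype).toAffine.Point) : Prop :=
  SameRed.InKer (W₀.map A.subtype).toAffine A.valuation P → P = 0

lemma clean_zero : Clean A W₀ 0 := fun _ => rfl

lemma Clean.neg {P : (W₀.map A.subtype).toAffine.Point} (hP : Clean A W₀ P) :
    Clean A W₀ (-P) := by
  rcases P with _ | ⟨x, y, hxy⟩
  · exact fun _ => rfl
  · intro hk
    rw [Point.neg_some] at hk
    exact absurd (hP hk) (Point.some_ne_zero _)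

lemma Clean.mem {x y : K} {hxy : (W₀.map A.subtype).toAffine.Nonsingular x y}
    (hP : Clean A W₀ (.some x y hxy)) : x ∈ A := by
  by_contra hx
  exact Point.some_ne_zero _ (hP (by
    by_contra hk
    exact hx ((mem_iff_not_inKer hxy).mpr hk)))

lemma red_eq_zero_of_clean (h : GoodRedDatum A φ W₀) {P : (W₀.map A.subtype).toAffine.Point}
    (hP : Clean A W₀ P) (h0 : red h P = 0) : P = 0 :=
  hP ((red_eq_zero_iff h P).mp h0)

/-- **Injectivity of reduction**: two clean points with clean difference and the same reduction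
are equal. -/
theorem eq_of_red_eq (h : GoodRedDatum A φ W₀) {P Q : (W₀.map A.subtype).toAffine.Point}
    (hP : Clean A W₀ P) (hQ : Clean A W₀ Q) (hPQ : Clean A W₀ (P - Q))
    (hred : red h P = red h Q) : P = Q := by
  rcases P with _ | ⟨x₁, y₁, h₁⟩
  · exact (red_eq_zero_of_clean h hQ hred.symm).symm
  rcases Q with _ | ⟨x₂, y₂, h₂⟩
  · exact red_eq_zero_of_clean h hP hred
  exact sub_eq_zero.mp (hPQ (inKer_sub_of_red_eq_some h h₁ h₂ hP.mem hQ.mem hred))


lemma exists_inv (h : GoodRedDatum A φ W₀) {d : A} (hd : φ d ≠ 0) :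
    ∃ e : A, (e : K) = (d : K)⁻¹ ∧ φ e = (φ d)⁻¹ := by
  have hv : A.valuation (d : K) = 1 :=
    le_antisymm ((A.valuation_le_one_iff _).mpr d.2) (not_lt.mp ((h.ker d).not.mp hd))
  have hd0 : (d : K) ≠ 0 := by
    intro h0
    rw [h0, map_zero] at hv
    exact zero_ne_one hv
  have hinv : (d : K)⁻¹ ∈ A := by
    rw [← A.valuation_le_one_iff, map_inv₀, hv, inv_one]
  refine ⟨⟨(d : K)⁻¹, hinv⟩, rfl, ?_⟩
  have hmul : (⟨(d : K)⁻¹, hinv⟩ : A) * d = 1 := Subtype.ext (inv_mul_cancel₀ hd0)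
  have := congrArg φ hmul
  rw [map_mul, map_one] at this
  exact eq_inv_of_mul_eq_one_left this

/-- The slope of the chord/tangent through two integral points whose reductions are not opposite
(and are distinct if the points have distinct `x`) is integral and reduces to the slope of the
reductions. -/
lemma exists_slope (h : GoodRedDatum A φ W₀) (a₁ b₁ a₂ b₂ : A)
    (e₁ : (W₀.map A.subtype).toAffine.Equation (a₁ : K) (b₁ : K))
    (e₂ : (W₀.map A.subtype).toAffine.Equation (a₂ : K) (b₂ : K))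
    (hne : ¬ (φ a₁ = φ a₂ ∧ φ b₁ = (W₀.map φ).toAffine.negY (φ a₂) (φ b₂)))
    (hx : (a₁ : K) ≠ a₂ → φ a₁ ≠ φ a₂) :
    ∃ l : A, (l : K) = (W₀.map A.subtype).toAffine.slope (a₁ : K) (a₂ : K) (b₁ : K) (b₂ : K) ∧
      φ l = (W₀.map φ).toAffine.slope (φ a₁) (φ a₂) (φ b₁) (φ b₂) := by
  by_cases hxx : (a₁ : K) = a₂
  · have ha : a₁ = a₂ := Subtype.ext hxx
    subst ha
    have hne' : φ b₁ ≠ (W₀.map φ).toAffine.negY (φ a₁) (φ b₂) := fun hh => hne ⟨rfl, hh⟩
    have hyK : (b₁ : K) ≠ (W₀.map A.subtype).toAffine.negY (a₁ : K) (b₂ : K) := by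
      intro hh
      apply hne'
      have e : b₁ = W₀.toAffine.negY a₁ b₂ := by
        apply Subtype.ext
        rw [hh]
        exact map_negY (W' := W₀.toAffine) A.subtype a₁ b₂
      rw [e]
      exact (map_negY (W' := W₀.toAffine) φ a₁ b₂).symm
    have hyy : (b₁ : K) = b₂ := Y_eq_of_Y_ne e₁ e₂ rfl hyK
    have hb : b₁ = b₂ := Subtype.ext hyy
    subst hb
    set d : A := b₁ - W₀.toAffine.negY a₁ b₁ with hd
    have hφd : φ d ≠ 0 := by
      rw [hd, map_sub, sub_ne_zero, ← map_negY (W' := W₀.toAffine) φ a₁ b₁]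
      exact hne'
    obtain ⟨e, he, hφe⟩ := exists_inv h hφd
    refine ⟨(3 * a₁ ^ 2 + 2 * W₀.a₂ * a₁ + W₀.a₄ - W₀.a₁ * b₁) * e, ?_, ?_⟩
    · rw [slope_of_Y_ne rfl hyK, div_eq_mul_inv]
      have hdK : ((d : A) : K) =
          (b₁ : K) - (W₀.map A.subtype).toAffine.negY (a₁ : K) (b₁ : K) := by
        rw [hd]
        have := map_negY (W' := W₀.toAffine) A.subtype a₁ b₁
        simp only [ValuationSubring.subtype_apply] at this
        rw [this]
        rfl
      rw [← hdK, ← he]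
      show A.subtype (_ * e) = _
      simp only [map_mul, map_sub, map_add, map_pow, map_ofNat]
      rfl
    · rw [slope_of_Y_ne rfl hne', div_eq_mul_inv, map_mul, hφe, hd]
      congr 2
      · simp only [map_sub, map_add, map_mul, map_pow, map_ofNat]
        rfl
      · rw [map_sub, ← map_negY (W' := W₀.toAffine) φ a₁ b₁]
  · have hφx : φ a₁ ≠ φ a₂ := hx hxx
    have hφd : φ (a₁ - a₂) ≠ 0 := by rwa [map_sub, sub_ne_zero]
    obtain ⟨e, he, hφe⟩ := exists_inv h hφd
    refine ⟨(b₁ - b₂) * e, ?_, ?_⟩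
    · rw [slope_of_X_ne hxx, div_eq_mul_inv]
      push_cast
      rw [he]
      push_cast
      rfl
    · rw [slope_of_X_ne hφx, div_eq_mul_inv, map_mul, hφe, map_sub, map_sub]


lemma some_congr {F : Type*} [CommRing F] {W : Affine F} {x y x' y' : F}
    (h : W.Nonsingular x y) (h' : W.Nonsingular x' y') (hx : x = x') (hy : y = y') :
    Point.some x y h = Point.some x' y' h' := by
  subst hx; subst hy; rfl

/-- **Additivity of reduction** on clean points with clean sum and difference. -/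
theorem red_add (h : GoodRedDatum A φ W₀) {P Q : (W₀.map A.subtype).toAffine.Point}
    (hP : Clean A W₀ P) (hQ : Clean A W₀ Q) (hadd : Clean A W₀ (P + Q))
    (hsub : Clean A W₀ (P - Q)) : red h (P + Q) = red h P + red h Q := by
  rcases P with _ | ⟨x₁, y₁, h₁⟩
  · show red h (0 + Q) = red h 0 + red h Q
    rw [zero_add, red_zero, zero_add]
  rcases Q with _ | ⟨x₂, y₂, h₂⟩
  · show red h (_ + 0) = red h _ + red h 0
    rw [add_zero, red_zero, add_zero]
  have hx₁ : x₁ ∈ A := hP.mem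
  have hx₂ : x₂ ∈ A := hQ.mem
  have hy₁ := y_mem_of_x_mem h₁.1 hx₁
  have hy₂ := y_mem_of_x_mem h₂.1 hx₂
  set a₁ : A := ⟨x₁, hx₁⟩ with ha₁
  set b₁ : A := ⟨y₁, hy₁⟩ with hb₁
  set a₂ : A := ⟨x₂, hx₂⟩ with ha₂
  set b₂ : A := ⟨y₂, hy₂⟩ with hb₂
  have r₁ := red_some h h₁ hx₁ hy₁
  have r₂ := red_some h h₂ hx₂ hy₂
  by_cases hopp : φ a₁ = φ a₂ ∧ φ b₁ = (W₀.map φ).toAffine.negY (φ a₂) (φ b₂)
  · -- opposite reductions: `P = -Q`
    have hneg : red h (.some x₁ y₁ h₁) = red h (-.some x₂ y₂ h₂) := by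
      rw [red_neg, r₁, r₂, Point.neg_some]
      exact some_congr _ _ hopp.1 hopp.2
    have hPQ : Point.some x₁ y₁ h₁ = -Point.some x₂ y₂ h₂ := by
      refine eq_of_red_eq h hP hQ.neg ?_ hneg
      rwa [sub_neg_eq_add]
    rw [hPQ, neg_add_cancel, red_zero, red_neg, neg_add_cancel]
  · have hxne : (a₁ : K) ≠ a₂ → φ a₁ ≠ φ a₂ := by
      intro hne hφ
      apply hne
      have hyφ : φ b₁ = φ b₂ :=
        Y_eq_of_Y_ne (equation_red a₁ b₁ h₁.1) (equation_red a₂ b₂ h₂.1) hφ
          (fun hh => hopp ⟨hφ, hh⟩)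
      have hred : red h (.some x₁ y₁ h₁) = red h (.some x₂ y₂ h₂) := by
        rw [r₁, r₂]
        exact some_congr _ _ hφ hyφ
      have := eq_of_red_eq h hP hQ hsub hred
      injection this
    obtain ⟨l, hl, hφl⟩ := exists_slope h a₁ b₁ a₂ b₂ h₁.1 h₂.1 hopp hxne
    have hK : ¬ (x₁ = x₂ ∧ y₁ = (W₀.map A.subtype).toAffine.negY x₂ y₂) := by
      rintro ⟨hx, hy⟩
      apply hopp
      have ea : a₁ = a₂ := Subtype.ext hx
      have eb : b₁ = W₀.toAffine.negY a₂ b₂ := by
        apply Subtype.ext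
        show y₁ = _
        rw [hy]
        exact map_negY (W' := W₀.toAffine) A.subtype a₂ b₂
      refine ⟨by rw [ea], ?_⟩
      rw [eb]
      exact (map_negY (W' := W₀.toAffine) φ a₂ b₂).symm
    have eX : (W₀.map A.subtype).toAffine.addX x₁ x₂
        ((W₀.map A.subtype).toAffine.slope x₁ x₂ y₁ y₂) = ((W₀.toAffine.addX a₁ a₂ l : A) : K) := by
      have := map_addX (W' := W₀.toAffine) A.subtype a₁ a₂ l
      simp only [ValuationSubring.subtype_apply] at this
      rw [← this, hl]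
    have eY : (W₀.map A.subtype).toAffine.addY x₁ x₂ y₁
        ((W₀.map A.subtype).toAffine.slope x₁ x₂ y₁ y₂) =
          ((W₀.toAffine.addY a₁ a₂ b₁ l : A) : K) := by
      have := map_addY (W' := W₀.toAffine) A.subtype a₁ b₁ a₂ l
      simp only [ValuationSubring.subtype_apply] at this
      rw [← this, hl]
    have hsum : Point.some x₁ y₁ h₁ + Point.some x₂ y₂ h₂ =
        Point.some _ _ (nonsingular_add h₁ h₂ hK) := Point.add_some hK
    have hns := nonsingular_add h₁ h₂ hK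
    rw [hsum, r₁, r₂, Point.add_some hopp]
    have hXmem : (W₀.map A.subtype).toAffine.addX x₁ x₂
        ((W₀.map A.subtype).toAffine.slope x₁ x₂ y₁ y₂) ∈ A := by
      rw [eX]; exact Subtype.property _
    have hYmem : (W₀.map A.subtype).toAffine.addY x₁ x₂ y₁
        ((W₀.map A.subtype).toAffine.slope x₁ x₂ y₁ y₂) ∈ A := by
      rw [eY]; exact Subtype.property _
    rw [red_some h hns hXmem hYmem]
    refine some_congr _ _ ?_ ?_
    · have e : (⟨_, hXmem⟩ : A) = W₀.toAffine.addX a₁ a₂ l := Subtype.ext eX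
      rw [e, ← hφl]
      exact (map_addX (W' := W₀.toAffine) φ a₁ a₂ l).symm
    · have e : (⟨_, hYmem⟩ : A) = W₀.toAffine.addY a₁ a₂ b₁ l := Subtype.ext eY
      rw [e, ← hφl]
      exact (map_addY (W' := W₀.toAffine) φ a₁ b₁ a₂ l).symm


/-- Torsion points of order prime to the residue characteristic are clean. -/
lemma clean_of_nsmul_eq_zero {n : ℕ} (hn : A.valuation (n : K) = 1)
    {P : (W₀.map A.subtype).toAffine.Point} (hP : n • P = 0) : Clean A W₀ P :=
  fun hk => C1b.eq_zero_of_inKer_of_nsmul_eq_zero integralCoeffs_map n hn P hk hP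

/-! ## Transported versions: curves propositionally equal to the base changes of `W₀` -/

/-- A reduction setup: good reduction datum plus identifications of the curves over `K` and `κ`
with the base changes of the integral model `W₀`. -/
structure RedSetup (A : ValuationSubring K) (φ : A →+* κ) (W₀ : WeierstrassCurve A)
    (WK : Affine K) (Wκ : Affine κ) : Prop extends GoodRedDatum A φ W₀ where
  hK : WK = (W₀.map A.subtype).toAffine
  hκ : Wκ = (W₀.map φ).toAffine

variable {WK : Affine K} {Wκ : Affine κ}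

/-- The reduction map of a reduction setup. -/
noncomputable def RedSetup.red (S : RedSetup A φ W₀ WK Wκ) (P : WK.Point) : Wκ.Point :=
  cast (congrArg Affine.Point S.hκ.symm)
    (Fermat.Agent.S52.H411.red S.toGoodRedDatum (cast (congrArg Affine.Point S.hK) P))

/-- Clean points: `0` or integral coordinates. -/
def RedSetup.Clean (S : RedSetup A φ W₀ WK Wκ) (P : WK.Point) : Prop :=
  SameRed.InKer WK A.valuation P → P = 0

lemma RedSetup.red_zero (S : RedSetup A φ W₀ WK Wκ) : S.red 0 = 0 := by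
  obtain ⟨h, hK, hκ⟩ := S
  subst hK; subst hκ
  rfl

lemma RedSetup.nonsingular_red (S : RedSetup A φ W₀ WK Wκ) {x y : K} (hxy : WK.Nonsingular x y)
    (hx : x ∈ A) (hy : y ∈ A) : Wκ.Nonsingular (φ ⟨x, hx⟩) (φ ⟨y, hy⟩) := by
  obtain ⟨h, hK, hκ⟩ := S
  subst hK; subst hκ
  exact Fermat.Agent.S52.H411.nonsingular_red h ⟨x, hx⟩ ⟨y, hy⟩ hxy.1

lemma RedSetup.red_some (S : RedSetup A φ W₀ WK Wκ) {x y : K} (hxy : WK.Nonsingular x y)
    (hx : x ∈ A) (hy : y ∈ A) :
    S.red (.some x y hxy) = .some (φ ⟨x, hx⟩) (φ ⟨y, hy⟩) (S.nonsingular_red hxy hx hy) := by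
  obtain ⟨h, hK, hκ⟩ := S
  subst hK; subst hκ
  exact Fermat.Agent.S52.H411.red_some h hxy hx hy

lemma RedSetup.clean_zero (S : RedSetup A φ W₀ WK Wκ) : S.Clean 0 := fun _ => rfl

lemma RedSetup.Clean.mem {S : RedSetup A φ W₀ WK Wκ} {x y : K} {hxy : WK.Nonsingular x y}
    (hP : S.Clean (.some x y hxy)) : x ∈ A ∧ y ∈ A := by
  obtain ⟨h, hK, hκ⟩ := S
  subst hK; subst hκ
  have hx : x ∈ A := Fermat.Agent.S52.H411.Clean.mem hP
  exact ⟨hx, y_mem_of_x_mem hxy.1 hx⟩

lemma RedSetup.clean_of_nsmul_eq_zero (S : RedSetup A φ W₀ WK Wκ) {n : ℕ}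
    (hn : A.valuation (n : K) = 1) {P : WK.Point} (hP : n • P = 0) : S.Clean P := by
  obtain ⟨h, hK, hκ⟩ := S
  subst hK; subst hκ
  exact Fermat.Agent.S52.H411.clean_of_nsmul_eq_zero hn hP

lemma RedSetup.clean_of_zsmul_eq_zero (S : RedSetup A φ W₀ WK Wκ) {n : ℕ}
    (hn : A.valuation (n : K) = 1) {P : WK.Point} (hP : (n : ℤ) • P = 0) : S.Clean P :=
  S.clean_of_nsmul_eq_zero hn (by rwa [natCast_zsmul] at hP)

theorem RedSetup.eq_of_red_eq (S : RedSetup A φ W₀ WK Wκ) {P Q : WK.Point}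
    (hP : S.Clean P) (hQ : S.Clean Q) (hPQ : S.Clean (P - Q)) (hred : S.red P = S.red Q) :
    P = Q := by
  obtain ⟨h, hK, hκ⟩ := S
  subst hK; subst hκ
  exact Fermat.Agent.S52.H411.eq_of_red_eq h hP hQ hPQ hred

theorem RedSetup.red_add (S : RedSetup A φ W₀ WK Wκ) {P Q : WK.Point}
    (hP : S.Clean P) (hQ : S.Clean Q) (hadd : S.Clean (P + Q)) (hsub : S.Clean (P - Q)) :
    S.red (P + Q) = S.red P + S.red Q := by
  obtain ⟨h, hK, hκ⟩ := S
  subst hK; subst hκ
  exact Fermat.Agent.S52.H411.red_add h hP hQ hadd hsub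

theorem RedSetup.red_neg (S : RedSetup A φ W₀ WK Wκ) (P : WK.Point) :
    S.red (-P) = - S.red P := by
  obtain ⟨h, hK, hκ⟩ := S
  subst hK; subst hκ
  exact Fermat.Agent.S52.H411.red_neg h P

theorem RedSetup.red_eq_zero_iff (S : RedSetup A φ W₀ WK Wκ) (P : WK.Point) :
    S.red P = 0 ↔ SameRed.InKer WK A.valuation P := by
  obtain ⟨h, hK, hκ⟩ := S
  subst hK; subst hκ
  exact Fermat.Agent.S52.H411.red_eq_zero_iff h P

/-- Reduction as an additive homomorphism on the `n`-torsion, `n` a unit of `A`. -/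
noncomputable def RedSetup.redTorsion (S : RedSetup A φ W₀ WK Wκ) (n : ℕ)
    (hn : A.valuation (n : K) = 1) :
    Submodule.torsionBy ℤ WK.Point (n : ℤ) →+ Wκ.Point where
  toFun P := S.red P.1
  map_zero' := S.red_zero
  map_add' P Q := by
    have c : ∀ R : Submodule.torsionBy ℤ WK.Point (n : ℤ), S.Clean R.1 := fun R =>
      S.clean_of_zsmul_eq_zero hn ((Submodule.mem_torsionBy_iff _ _).mp R.2)
    exact S.red_add (c P) (c Q) (c (P + Q)) (c (P - Q))

@[simp] lemma RedSetup.redTorsion_apply (S : RedSetup A φ W₀ WK Wκ) (n : ℕ)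
    (hn : A.valuation (n : K) = 1) (P : Submodule.torsionBy ℤ WK.Point (n : ℤ)) :
    S.redTorsion n hn P = S.red P.1 := rfl

theorem RedSetup.redTorsion_injective (S : RedSetup A φ W₀ WK Wκ) (n : ℕ)
    (hn : A.valuation (n : K) = 1) : Function.Injective (S.redTorsion n hn) := by
  have c : ∀ R : Submodule.torsionBy ℤ WK.Point (n : ℤ), S.Clean R.1 := fun R =>
    S.clean_of_zsmul_eq_zero hn ((Submodule.mem_torsionBy_iff _ _).mp R.2)
  intro P Q hPQ
  exact Subtype.ext (S.eq_of_red_eq (c P) (c Q) (c (P - Q)) hPQ)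

/-- **Equivariance**: if `σ` preserves `A` and induces `τ` on the residue field, then reduction
intertwines `(x, y) ↦ (σ x, σ y)` and `(x, y) ↦ (τ x, τ y)` on integral points. -/
theorem RedSetup.red_map_some (S : RedSetup A φ W₀ WK Wκ) (σ : K →+* K) (τ : κ →+* κ)
    (hστ : ∀ (x : K) (hx : x ∈ A), ∃ hx' : σ x ∈ A, φ ⟨σ x, hx'⟩ = τ (φ ⟨x, hx⟩))
    {x y : K} (hxy : WK.Nonsingular x y) (hxy' : WK.Nonsingular (σ x) (σ y))
    (hx : x ∈ A) (hy : y ∈ A)
    (hτ : Wκ.Nonsingular (τ (φ ⟨x, hx⟩)) (τ (φ ⟨y, hy⟩))) :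
    S.red (.some (σ x) (σ y) hxy') = .some (τ (φ ⟨x, hx⟩)) (τ (φ ⟨y, hy⟩)) hτ := by
  obtain ⟨hx', ex⟩ := hστ x hx
  obtain ⟨hy', ey⟩ := hστ y hy
  rw [S.red_some hxy' hx' hy']
  exact some_congr _ _ ex ey

end Fermat.Agent.S52.H411
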