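import Fermat.Agent.S52.H411.Red
import Fermat.Agent.S54.FrobExists
import Fermat.Prelude.Def_FLTPrelim_Modularity

/-!
# S52 / Part A: from the Frobenius relation in characteristic `ℓ` to `a_ℓ mod n` congruences

* `FrobRel W ℓ κ`: the Frobenius relation `Φ² - a_ℓ Φ + ℓ = 0` on the `κ`-points of the reduction
  of `W` modulo `ℓ` (`κ` any field of characteristic `ℓ`) -- this is the interface consumed here.
* `frob_rel_torsion`: the relation `σ² - a_ℓ σ + ℓ = 0` on `E[n](ℚ̄)` for a Frobenius element `σ`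
  at a good prime `ℓ ∤ n`.
* `ap_congr_of_torsion_map`: a nonzero Galois-equivariant additive map `E[5] → E'[5]` forces
  `a_ℓ(E) ≡ a_ℓ(E') mod 5` at common good primes `ℓ ≠ 5`.
-/

set_option autoImplicit false
set_option linter.unusedSectionVars false
set_option linter.unusedVariables false

namespace Fermat.Agent.S52.H411

open WeierstrassCurve WeierstrassCurve.Affine
open Fermat.Agent.S05

/-- Frobenius as a `ℤ`-algebra endomorphism of a field of characteristic `ℓ`. -/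
noncomputable def frobInt (κ : Type*) [Field κ] (ℓ : ℕ) [Fact ℓ.Prime] [CharP κ ℓ] : κ →ₐ[ℤ] κ :=
  (frobenius κ ℓ).toIntAlgHom

@[simp] lemma frobInt_apply (κ : Type*) [Field κ] (ℓ : ℕ) [Fact ℓ.Prime] [CharP κ ℓ] (x : κ) :
    frobInt κ ℓ x = x ^ ℓ := rfl

/-- The base change of an integral model to a field `κ` (with the canonical `ℤ`-algebra
structure of a ring). -/
abbrev redCurve (W : WeierstrassCurve ℤ) (κ : Type*) [Field κ] : Affine κ := W.toAffine⁄κ

/-- The Frobenius endomorphism of the group of `κ`-points of (the base change of) `W`. -/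
noncomputable def frobPt (W : WeierstrassCurve ℤ) (ℓ : ℕ) [Fact ℓ.Prime] (κ : Type*) [Field κ]
    [DecidableEq κ] [CharP κ ℓ] : (redCurve W κ).Point →+ (redCurve W κ).Point :=
  Point.map (W' := W.toAffine) (frobInt κ ℓ)

lemma nonsingular_frob (W : WeierstrassCurve ℤ) (ℓ : ℕ) [Fact ℓ.Prime] (κ : Type*) [Field κ]
    [CharP κ ℓ] {x y : κ} (h : (redCurve W κ).Nonsingular x y) :
    (redCurve W κ).Nonsingular (x ^ ℓ) (y ^ ℓ) :=
  (W.toAffine.baseChange_nonsingular (frobInt κ ℓ).injective x y).mpr h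

lemma frobPt_some (W : WeierstrassCurve ℤ) (ℓ : ℕ) [Fact ℓ.Prime] (κ : Type*) [Field κ]
    [DecidableEq κ] [CharP κ ℓ] {x y : κ} (h : (redCurve W κ).Nonsingular x y) :
    frobPt W ℓ κ (.some x y h) = .some (x ^ ℓ) (y ^ ℓ) (nonsingular_frob W ℓ κ h) :=
  rfl

/-- **Interface**: the Frobenius relation `Φ² - a_ℓ Φ + ℓ = 0` on the `κ`-points of the reduction
of `W` modulo `ℓ`. -/
def FrobRel (W : WeierstrassCurve ℤ) (ℓ : ℕ) [Fact ℓ.Prime] (κ : Type*) [Field κ]
    [DecidableEq κ] [CharP κ ℓ] : Prop :=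
  ∀ P : (redCurve W κ).Point,
    frobPt W ℓ κ (frobPt W ℓ κ P) - W.apOfModel ℓ • frobPt W ℓ κ P + (ℓ : ℤ) • P = 0

end Fermat.Agent.S52.H411

namespace Fermat.Agent.S52.H411

open WeierstrassCurve WeierstrassCurve.Affine
open Fermat.Agent.S05

section Qbar

local notation "Qb" => AlgebraicClosure ℚ

variable (A : ValuationSubring Qb) (ℓ : ℕ) [hℓ : Fact ℓ.Prime]

lemma natCast_residue_eq_zero (hA : A.LiesOverPrime ℓ) :
    (ℓ : IsLocalRing.ResidueField A) = 0 := by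
  have h1 : ((ℓ : A) : Qb) ∈ A.nonunits := by
    have : ((ℓ : A) : Qb) = (ℓ : Qb) := by push_cast; rfl
    rw [this]; exact hA
  have h2 : (ℓ : A) ∈ IsLocalRing.maximalIdeal A := ValuationSubring.coe_mem_nonunits_iff.mp h1
  have h3 := (IsLocalRing.residue_eq_zero_iff (ℓ : A)).mpr h2
  rwa [map_natCast] at h3

lemma charP_residueField (hA : A.LiesOverPrime ℓ) : CharP (IsLocalRing.ResidueField A) ℓ :=
  (CharP.charP_iff_prime_eq_zero hℓ.out).mpr (natCast_residue_eq_zero A ℓ hA)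

/-- The reduction setup attached to an integral Weierstrass model and a valuation subring of `ℚ̄`
over a prime of good reduction. -/
theorem redSetup_of_good [DecidableEq (IsLocalRing.ResidueField A)] (hA : A.LiesOverPrime ℓ)
    (W : WeierstrassCurve ℤ) (hW : ¬ (ℓ : ℤ) ∣ W.Δ) :
    RedSetup A (IsLocalRing.residue A) (W.map (Int.castRingHom A))
      ((W.map (Int.castRingHom ℚ)).toAffine⁄Qb) (redCurve W (IsLocalRing.ResidueField A)) := by
  have := charP_residueField A ℓ hA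
  refine ⟨⟨?_, ?_⟩, ?_, ?_⟩
  · intro a
    rw [IsLocalRing.residue_eq_zero_iff, ValuationSubring.valuation_lt_one_iff]
  · rw [WeierstrassCurve.map_map, WeierstrassCurve.map_Δ, eq_intCast, Ne,
      CharP.intCast_eq_zero_iff (IsLocalRing.ResidueField A) ℓ]
    exact hW
  · show (W.map (Int.castRingHom ℚ)).map (algebraMap ℚ Qb) = (W.map (Int.castRingHom A)).map _
    rw [WeierstrassCurve.map_map, WeierstrassCurve.map_map]
    congr 1
  · show W.map (algebraMap ℤ _) = (W.map (Int.castRingHom A)).map _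
    rw [WeierstrassCurve.map_map]
    congr 1


/-- A Frobenius element at `A` preserves `A` and induces the `ℓ`-power map on the residue
field. -/
lemma frobenius_residue {σ : Qb ≃ₐ[ℚ] Qb} (hσ : A.IsFrobeniusAt σ ℓ) (x : Qb) (hx : x ∈ A) :
    ∃ hx' : σ x ∈ A, IsLocalRing.residue A ⟨σ x, hx'⟩ = (IsLocalRing.residue A ⟨x, hx⟩) ^ ℓ := by
  obtain ⟨hσA, hσF⟩ := hσ
  have key := hσF (IsLocalRing.residue A ⟨x, hx⟩)
  rw [← IsLocalRing.ResidueField.residue_smul] at key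
  have hmem : σ x ∈ A := ((⟨σ, hσA⟩ : A.decompositionSubgroup ℚ) • (⟨x, hx⟩ : A)).2
  exact ⟨hmem, key⟩


variable [DecidableEq (IsLocalRing.ResidueField A)] [CharP (IsLocalRing.ResidueField A) ℓ]

/-- **Reduction intertwines a Frobenius element with the Frobenius endomorphism.** -/
theorem red_smul_frob (hA : A.LiesOverPrime ℓ) (W : WeierstrassCurve ℤ) (hW : ¬ (ℓ : ℤ) ∣ W.Δ)
    {σ : Qb ≃ₐ[ℚ] Qb} (hσ : A.IsFrobeniusAt σ ℓ)
    (P : ((W.map (Int.castRingHom ℚ)).toAffine⁄Qb).Point)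
    (hP : (redSetup_of_good A ℓ hA W hW).Clean P) :
    (redSetup_of_good A ℓ hA W hW).red (σ • P) =
      frobPt W ℓ (IsLocalRing.ResidueField A) ((redSetup_of_good A ℓ hA W hW).red P) := by
  set S := redSetup_of_good A ℓ hA W hW
  rcases P with _ | ⟨x, y, hxy⟩
  · show S.red (σ • 0) = frobPt W ℓ _ (S.red 0)
    rw [smul_zero, S.red_zero]
    exact (map_zero (frobPt W ℓ (IsLocalRing.ResidueField A))).symm
  · obtain ⟨hx, hy⟩ := hP.mem
    rw [S.red_some hxy hx hy]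
    have h1 : σ • Point.some x y hxy = Point.some (σ x) (σ y)
        (((W.map (Int.castRingHom ℚ)).toAffine.baseChange_nonsingular
          σ.toAlgHom.injective x y).mpr hxy) := rfl
    rw [h1]
    have h2 := S.red_map_some (σ : Qb →+* Qb) (frobenius (IsLocalRing.ResidueField A) ℓ)
      (fun t ht => frobenius_residue A ℓ hσ t ht) hxy
      (((W.map (Int.castRingHom ℚ)).toAffine.baseChange_nonsingular
          σ.toAlgHom.injective x y).mpr hxy) hx hy
      (nonsingular_frob W ℓ _ (S.nonsingular_red hxy hx hy))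
    rw [frobPt_some]
    exact h2


lemma valuation_natCast_eq_one (hA : A.LiesOverPrime ℓ) {n : ℕ} (hn : ¬ ℓ ∣ n) :
    A.valuation ((n : ℕ) : Qb) = 1 := by
  have h1 : A.valuation ((n : ℕ) : Qb) ≤ 1 := (A.valuation_le_one_iff _).mpr (natCast_mem A n)
  refine le_antisymm h1 (not_lt.mp fun hlt => hn ?_)
  have h2 : (((n : ℤ)) : Qb) ∈ A.nonunits := by
    rw [ValuationSubring.mem_nonunits_iff]
    simpa using hlt
  have := Fermat.Agent.S54.dvd_of_intCast_mem_nonunits A ℓ hℓ.out hA (n : ℤ) h2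
  exact_mod_cast this

/-- **Frobenius relation on torsion in characteristic zero.**  If `ℓ` is a prime of good reduction
for `W`, `σ` is a Frobenius element at a valuation subring `A` of `ℚ̄` over `ℓ`, and the Frobenius
relation holds on the reduction of `W` over the residue field of `A`, then
`σ² - a_ℓ σ + ℓ = 0` on `E[n](ℚ̄)` for every `n` prime to `ℓ`. -/
theorem frob_rel_torsion (hA : A.LiesOverPrime ℓ) (W : WeierstrassCurve ℤ) (hW : ¬ (ℓ : ℤ) ∣ W.Δ)
    {σ : Qb ≃ₐ[ℚ] Qb} (hσ : A.IsFrobeniusAt σ ℓ)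
    (hF : FrobRel W ℓ (IsLocalRing.ResidueField A)) {n : ℕ} (hn : ¬ ℓ ∣ n)
    (P : Submodule.torsionBy ℤ ((W.map (Int.castRingHom ℚ)).toAffine⁄Qb).Point (n : ℤ)) :
    σ • σ • P - W.apOfModel ℓ • σ • P + (ℓ : ℤ) • P = 0 := by
  set S := redSetup_of_good A ℓ hA W hW
  have hv := valuation_natCast_eq_one A ℓ hA hn
  have hinj := S.redTorsion_injective n hv
  have hclean : ∀ Q : Submodule.torsionBy ℤ ((W.map (Int.castRingHom ℚ)).toAffine⁄Qb).Point
      (n : ℤ), S.Clean Q.1 := fun Q =>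
    S.clean_of_zsmul_eq_zero hv ((Submodule.mem_torsionBy_iff _ _).mp Q.2)
  have hfrob : ∀ Q : Submodule.torsionBy ℤ ((W.map (Int.castRingHom ℚ)).toAffine⁄Qb).Point
      (n : ℤ), S.redTorsion n hv (σ • Q) =
        frobPt W ℓ (IsLocalRing.ResidueField A) (S.redTorsion n hv Q) := fun Q =>
    red_smul_frob A ℓ hA W hW hσ Q.1 (hclean Q)
  apply hinj
  rw [map_add, map_sub, map_zsmul, map_zsmul, hfrob, hfrob, map_zero]
  exact hF _

end Qbar

section Main

local notation "Qb" => AlgebraicClosure ℚ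

/-- **(G2)** A nonzero Galois-equivariant additive map `W[n](ℚ̄) → W'[n](ℚ̄)` (`n` prime) forces
`a_ℓ(W') ≡ a_ℓ(W) mod n` at every common good prime `ℓ ≠ n` at which both reductions satisfy the
Frobenius relation.  (Only equivariance under one Frobenius element is used.) -/
theorem ap_congr_of_torsion_map_gen (W W' : WeierstrassCurve ℤ) (ℓ : ℕ) [hℓ : Fact ℓ.Prime]
    (n : ℕ) (hnp : n.Prime) (hℓn : ℓ ≠ n)
    (hW : W.IsGoodPrimeFor ℓ) (hW' : W'.IsGoodPrimeFor ℓ)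
    (hF : ∀ (κ : Type) [Field κ] [DecidableEq κ] [CharP κ ℓ], FrobRel W ℓ κ)
    (hF' : ∀ (κ : Type) [Field κ] [DecidableEq κ] [CharP κ ℓ], FrobRel W' ℓ κ)
    (θ : Submodule.torsionBy ℤ ((W.map (Int.castRingHom ℚ)).toAffine⁄Qb).Point (n : ℤ) →+
      Submodule.torsionBy ℤ ((W'.map (Int.castRingHom ℚ)).toAffine⁄Qb).Point (n : ℤ))
    (hθ : θ ≠ 0) (hequiv : ∀ (σ : Qb ≃ₐ[ℚ] Qb) P, θ (σ • P) = σ • θ P) :
    (n : ℤ) ∣ W'.apOfModel ℓ - W.apOfModel ℓ := by
  classical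
  obtain ⟨A, σ, hA, hσ⟩ := Fermat.Agent.S54.exists_frobenius ℓ hℓ.out
  have := charP_residueField A ℓ hA
  have hn : ¬ ℓ ∣ n := fun h => hℓn ((Nat.prime_dvd_prime_iff_eq hℓ.out hnp).mp h)
  obtain ⟨P, hP⟩ : ∃ P, θ P ≠ 0 := by
    by_contra hcon
    exact hθ (AddMonoidHom.ext fun Q => by
      by_contra hQ
      exact hcon ⟨Q, hQ⟩)
  have r1 := frob_rel_torsion A ℓ hA W hW hσ (hF _) hn P
  have r2 := frob_rel_torsion A ℓ hA W' hW' hσ (hF' _) hn (θ P)
  have r1' := congrArg θ r1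
  rw [map_add, map_sub, map_zsmul, map_zsmul, hequiv, hequiv, map_zero] at r1'
  have hdiff : (W'.apOfModel ℓ - W.apOfModel ℓ) • σ • θ P = 0 := by
    have : (W'.apOfModel ℓ - W.apOfModel ℓ) • σ • θ P =
        (σ • σ • θ P - W.apOfModel ℓ • σ • θ P + (ℓ : ℤ) • θ P) -
          (σ • σ • θ P - W'.apOfModel ℓ • σ • θ P + (ℓ : ℤ) • θ P) := by
      rw [sub_smul]; abel
    rw [this, r1', r2, sub_zero]
  have hσQ : σ • θ P ≠ 0 := fun h0 => hP ((smul_eq_zero_iff_eq σ).mp h0)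
  have htors : (n : ℤ) • σ • θ P = 0 := Submodule.smul_torsionBy _ _
  by_contra hndvd
  have hcop : IsCoprime (n : ℤ) (W'.apOfModel ℓ - W.apOfModel ℓ) :=
    (Nat.prime_iff_prime_int.mp hnp).coprime_iff_not_dvd.mpr hndvd
  obtain ⟨u, v, huv⟩ := hcop
  apply hσQ
  have : (u * n + v * (W'.apOfModel ℓ - W.apOfModel ℓ)) • σ • θ P = 0 := by
    rw [add_smul, mul_smul, mul_smul, htors, hdiff, smul_zero, smul_zero, add_zero]
  rwa [huv, one_smul] at this

/-- **(G2)** for `n = 5`, in the shape used by S52. -/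
theorem ap_congr_of_torsion_map (W W' : WeierstrassCurve ℤ) (ℓ : ℕ) [hℓ : Fact ℓ.Prime]
    (hℓ5 : ℓ ≠ 5) (hW : W.IsGoodPrimeFor ℓ) (hW' : W'.IsGoodPrimeFor ℓ)
    (hF : ∀ (κ : Type) [Field κ] [DecidableEq κ] [CharP κ ℓ], FrobRel W ℓ κ)
    (hF' : ∀ (κ : Type) [Field κ] [DecidableEq κ] [CharP κ ℓ], FrobRel W' ℓ κ)
    (θ : Submodule.torsionBy ℤ ((W.map (Int.castRingHom ℚ)).toAffine⁄Qb).Point ((5 : ℕ) : ℤ) →+
      Submodule.torsionBy ℤ ((W'.map (Int.castRingHom ℚ)).toAffine⁄Qb).Point ((5 : ℕ) : ℤ))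
    (hθ : θ ≠ 0) (hequiv : ∀ (σ : Qb ≃ₐ[ℚ] Qb) P, θ (σ • P) = σ • θ P) :
    (5 : ℤ) ∣ W'.apOfModel ℓ - W.apOfModel ℓ := by
  have := ap_congr_of_torsion_map_gen W W' ℓ 5 (by norm_num) hℓ5 hW hW' hF hF' θ hθ hequiv
  exact_mod_cast this

end Main

end Fermat.Agent.S52.H411
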